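import Fermat.Agent.Ribet.H809.M6aSpec
import Fermat.Agent.Ribet.H376.HeckeFricke

/-!
# Row 38, WALL-p, leaf M6a (C) FRICKE-NORM (helper986)

`frickeNorm : M6a.FrickeNormStatement` — adapter to `H376.wF_heckeNorm` (main).
-/

set_option autoImplicit false

noncomputable section

namespace Fermat.Agent.Ribet.H986

open Fermat.Agent.Ribet.H809

/-- **(C) FRICKE-NORM.** -/
theorem frickeNorm : M6a.FrickeNormStatement := by
  intro N ℓ _ _ hℓ hℓN f
  exact Fermat.Agent.Ribet.H376.wF_heckeNorm hℓ hℓN f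

end Fermat.Agent.Ribet.H986

end
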